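import Fermat.Agent.LT.T2.H973.ArchSpec
import Fermat.Agent.LT.T1.H793.AdeleProj
import Fermat.Agent.LT.T2.H472.LocCont

/-!
# Row LT, tower T2, leaf T2.10.08.04 `LocEmbC` (A4; helper546), OFF-MAIN

The embedding `j : GL₂(ℂ) →* GL₂(𝔸_K)` and `ι : ℂ →+ 𝔸_K` at a complex place `w`
(`IsLocEmb w j ι`, 7 fields).  `j h` has the component `σ⁻¹(h)` at `w`
(`σ = ringEquivComplexOfIsComplex`) and `1` at every other place; `ι x` has the component
`σ⁻¹(x)` at `w` and `0` elsewhere.

Imports: `T2/H973/ArchSpec.lean` (helper973), `T1/H793/AdeleProj.lean` (helper793: `glMk793`,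
`gl_ext793`), `T2/H472/LocCont.lean` (helper472: `locCont472`), byte-identical copies.
-/

set_option autoImplicit false
set_option linter.unusedSectionVars false

open IsDedekindDomain NumberField
open Fermat.Agent.LT.H556.A0
open Fermat.Agent.LT.T2 Fermat.Agent.LT.T2.H941 Fermat.Agent.LT.T2.H973
open Fermat.Agent.LT.T1.H793 Fermat.Agent.LT.T2.H472

noncomputable section

namespace Fermat.Agent.LT.T2.H973.H546

variable {K : Type} [Field K] [NumberField K]

open scoped Classical

/-! ## The components -/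

theorem one_int_h546 (v : HeightOneSpectrum (𝓞 K)) (i j : Fin 2) :
    ((1 : GL (Fin 2) (v.adicCompletion K)) : Matrix (Fin 2) (Fin 2) (v.adicCompletion K)) i j
      ∈ v.adicCompletionIntegers K := by
  rw [Units.val_one, Matrix.one_apply]
  split_ifs
  · exact one_mem _
  · exact zero_mem _

theorem one_inv_int_h546 (v : HeightOneSpectrum (𝓞 K)) (i j : Fin 2) :
    (((1 : GL (Fin 2) (v.adicCompletion K))⁻¹ : GL (Fin 2) (v.adicCompletion K)) :
      Matrix (Fin 2) (Fin 2) (v.adicCompletion K)) i j ∈ v.adicCompletionIntegers K := by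
  rw [inv_one]
  exact one_int_h546 v i j

/-- The family of components at the infinite places: `σ⁻¹(h)` at `w`, `1` elsewhere. -/
def kwFam_h546 {w : InfinitePlace K} (hw : w.IsComplex) (h : GL (Fin 2) ℂ) :
    ∀ w' : InfinitePlace K, GL (Fin 2) w'.Completion :=
  Pi.mulSingle w (Matrix.GeneralLinearGroup.map
    ((InfinitePlace.Completion.ringEquivComplexOfIsComplex hw).symm : ℂ →+* w.Completion) h)

theorem kwFam_same_h546 {w : InfinitePlace K} (hw : w.IsComplex) (h : GL (Fin 2) ℂ) :
    kwFam_h546 hw h w = Matrix.GeneralLinearGroup.map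
      ((InfinitePlace.Completion.ringEquivComplexOfIsComplex hw).symm : ℂ →+* w.Completion) h := by
  unfold kwFam_h546
  exact Pi.mulSingle_eq_same _ _

theorem kwFam_ne_h546 {w : InfinitePlace K} (hw : w.IsComplex) (h : GL (Fin 2) ℂ)
    {w' : InfinitePlace K} (hne : w' ≠ w) : kwFam_h546 hw h w' = 1 := by
  unfold kwFam_h546
  exact Pi.mulSingle_eq_of_ne hne _

theorem kwFam_one_h546 {w : InfinitePlace K} (hw : w.IsComplex) :
    kwFam_h546 hw (1 : GL (Fin 2) ℂ) = 1 := by
  unfold kwFam_h546
  rw [map_one, Pi.mulSingle_one]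

theorem kwFam_mul_h546 {w : InfinitePlace K} (hw : w.IsComplex) (a b : GL (Fin 2) ℂ) :
    kwFam_h546 hw (a * b) = kwFam_h546 hw a * kwFam_h546 hw b := by
  unfold kwFam_h546
  rw [map_mul, Pi.mulSingle_mul]

/-- The element `j h` of `GL₂(𝔸_K)`. -/
def jFun_h546 {w : InfinitePlace K} (hw : w.IsComplex) (h : GL (Fin 2) ℂ) : G K :=
  glMk793 (kwFam_h546 hw h) (fun _ => 1) (fun v i j => one_int_h546 v i j)
    (fun v i j => one_inv_int_h546 v i j)

theorem glInf_jFun_h546 {w : InfinitePlace K} (hw : w.IsComplex) (h : GL (Fin 2) ℂ)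
    (w' : InfinitePlace K) : glInf793 w' (jFun_h546 hw h) = kwFam_h546 hw h w' :=
  glInf793_glMk _ _ _ _ w'

theorem glFin_jFun_h546 {w : InfinitePlace K} (hw : w.IsComplex) (h : GL (Fin 2) ℂ)
    (v : HeightOneSpectrum (𝓞 K)) : glFin793 v (jFun_h546 hw h) = 1 :=
  glFin793_glMk _ _ _ _ v

/-- **The embedding `j`.** -/
def jHom_h546 {w : InfinitePlace K} (hw : w.IsComplex) : GL (Fin 2) ℂ →* G K where
  toFun := jFun_h546 hw
  map_one' := by
    apply gl_ext793
    · intro w'
      rw [glInf_jFun_h546, map_one, kwFam_one_h546]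
      rfl
    · intro v
      rw [glFin_jFun_h546, map_one]
  map_mul' a b := by
    apply gl_ext793
    · intro w'
      rw [map_mul, glInf_jFun_h546, glInf_jFun_h546, glInf_jFun_h546, kwFam_mul_h546]
      rfl
    · intro v
      rw [map_mul, glFin_jFun_h546, glFin_jFun_h546, glFin_jFun_h546, one_mul]

theorem jHom_apply_h546 {w : InfinitePlace K} (hw : w.IsComplex) (h : GL (Fin 2) ℂ) :
    jHom_h546 hw h = jFun_h546 hw h := rfl

/-- The entries of `j h`, infinite part. -/
theorem jFun_entry_inf_h546 {w : InfinitePlace K} (hw : w.IsComplex) (h : GL (Fin 2) ℂ)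
    (w' : InfinitePlace K) (i j : Fin 2) :
    ((jFun_h546 hw h : Matrix (Fin 2) (Fin 2) (Adl K)) i j).1 w'
      = ((kwFam_h546 hw h w' : GL (Fin 2) w'.Completion) :
          Matrix (Fin 2) (Fin 2) w'.Completion) i j := rfl

/-- The entries of `j h`, finite part. -/
theorem jFun_entry_fin_h546 {w : InfinitePlace K} (hw : w.IsComplex) (h : GL (Fin 2) ℂ)
    (v : HeightOneSpectrum (𝓞 K)) (i j : Fin 2) :
    ((jFun_h546 hw h : Matrix (Fin 2) (Fin 2) (Adl K)) i j).2 v
      = (1 : Matrix (Fin 2) (Fin 2) (v.adicCompletion K)) i j := rfl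

theorem jFun_entry_same_h546 {w : InfinitePlace K} (hw : w.IsComplex) (h : GL (Fin 2) ℂ)
    (i j : Fin 2) :
    ((jFun_h546 hw h : Matrix (Fin 2) (Fin 2) (Adl K)) i j).1 w
      = (InfinitePlace.Completion.ringEquivComplexOfIsComplex hw).symm
          ((h : Matrix (Fin 2) (Fin 2) ℂ) i j) := by
  rw [jFun_entry_inf_h546, kwFam_same_h546]
  rfl

theorem jFun_entry_ne_h546 {w : InfinitePlace K} (hw : w.IsComplex) (h : GL (Fin 2) ℂ)
    {w' : InfinitePlace K} (hne : w' ≠ w) (i j : Fin 2) :
    ((jFun_h546 hw h : Matrix (Fin 2) (Fin 2) (Adl K)) i j).1 w'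
      = (1 : Matrix (Fin 2) (Fin 2) w'.Completion) i j := by
  rw [jFun_entry_inf_h546, kwFam_ne_h546 hw h hne]
  rfl

/-! ## The additive embedding -/

/-- **The embedding `ι`**: `σ⁻¹(x)` at `w`, `0` elsewhere. -/
def iotaHom_h546 {w : InfinitePlace K} (hw : w.IsComplex) : ℂ →+ Adl K where
  toFun x := ((Pi.single w ((InfinitePlace.Completion.ringEquivComplexOfIsComplex hw).symm x) :
    InfiniteAdeleRing K), (0 : FiniteAdeleRing (𝓞 K) K))
  map_zero' := by
    rw [map_zero, Pi.single_zero]
    rfl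
  map_add' x y := by
    rw [map_add, Pi.single_add]
    refine Prod.ext rfl ?_
    show (0 : FiniteAdeleRing (𝓞 K) K) = 0 + 0
    rw [add_zero]

theorem iota_same_h546 {w : InfinitePlace K} (hw : w.IsComplex) (x : ℂ) :
    (iotaHom_h546 hw x).1 w
      = (InfinitePlace.Completion.ringEquivComplexOfIsComplex hw).symm x := by
  show (Pi.single w ((InfinitePlace.Completion.ringEquivComplexOfIsComplex hw).symm x) :
    InfiniteAdeleRing K) w = _
  exact Pi.single_eq_same _ _

theorem iota_ne_h546 {w : InfinitePlace K} (hw : w.IsComplex) (x : ℂ)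
    {w' : InfinitePlace K} (hne : w' ≠ w) : (iotaHom_h546 hw x).1 w' = 0 := by
  show (Pi.single w ((InfinitePlace.Completion.ringEquivComplexOfIsComplex hw).symm x) :
    InfiniteAdeleRing K) w' = _
  exact Pi.single_eq_of_ne hne _

theorem iota_fin_h546 {w : InfinitePlace K} (hw : w.IsComplex) (x : ℂ) :
    (iotaHom_h546 hw x).2 = 0 := rfl

theorem continuous_iota_h546 {w : InfinitePlace K} (hw : w.IsComplex) :
    Continuous (iotaHom_h546 hw : ℂ → Adl K) := by
  have h1 : Continuous fun x : ℂ =>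
      (InfinitePlace.Completion.ringEquivComplexOfIsComplex hw).symm x :=
    (InfinitePlace.Completion.isometryEquivComplexOfIsComplex hw).symm.continuous
  have h2 : Continuous fun x : ℂ =>
      (Pi.single w ((InfinitePlace.Completion.ringEquivComplexOfIsComplex hw).symm x) :
        InfiniteAdeleRing K) := (continuous_single w).comp h1
  exact h2.prodMk continuous_const

/-! ## The seven fields -/

theorem jHom_loc_h546 {w : InfinitePlace K} (hw : w.IsComplex) (h : GL (Fin 2) ℂ) :
    IsLocalAtInf w (jHom_h546 hw h) := by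
  refine ⟨fun w' hne i j => jFun_entry_ne_h546 hw h hne i j, fun v => ?_⟩
  show finComp v (jFun_h546 hw h) = 1
  exact Matrix.ext fun i j => jFun_entry_fin_h546 hw h v i j

theorem jHom_comp_h546 {w : InfinitePlace K} (hw : w.IsComplex) (h : GL (Fin 2) ℂ) :
    infComp w (jHom_h546 hw h) = (h : Matrix (Fin 2) (Fin 2) ℂ) := by
  refine Matrix.ext fun i j => ?_
  show InfinitePlace.Completion.extensionEmbedding w
    (((jFun_h546 hw h : Matrix (Fin 2) (Fin 2) (Adl K)) i j).1 w) = _
  rw [jFun_entry_same_h546, ← InfinitePlace.Completion.ringEquivComplexOfIsComplex_apply hw,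
    RingEquiv.apply_symm_apply]

theorem jHom_cont_h546 {w : InfinitePlace K} (hw : w.IsComplex) :
    Continuous (jHom_h546 hw : GL (Fin 2) ℂ → G K) := by
  apply locCont472 K w (GL (Fin 2) ℂ) (jHom_h546 hw) (jHom_loc_h546 hw)
  intro i j
  have : (fun h : GL (Fin 2) ℂ => infComp w (jHom_h546 hw h) i j)
      = fun h : GL (Fin 2) ℂ => (h : Matrix (Fin 2) (Fin 2) ℂ) i j := by
    funext h
    rw [jHom_comp_h546]
  rw [this]
  exact Units.continuous_val.matrix_elem i j

/-- Equality of two elements of `GL₂(𝔸_K)`, entrywise and componentwise. -/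
theorem g_ext_h546 {g g' : G K}
    (h1 : ∀ (w' : InfinitePlace K) (i j : Fin 2),
      ((g : Matrix (Fin 2) (Fin 2) (Adl K)) i j).1 w'
        = ((g' : Matrix (Fin 2) (Fin 2) (Adl K)) i j).1 w')
    (h2 : ∀ (v : HeightOneSpectrum (𝓞 K)) (i j : Fin 2),
      ((g : Matrix (Fin 2) (Fin 2) (Adl K)) i j).2 v
        = ((g' : Matrix (Fin 2) (Fin 2) (Adl K)) i j).2 v) : g = g' := by
  apply Units.ext
  exact Matrix.ext fun i j => adl_ext793 (fun w' => h1 w' i j) (fun v => h2 v i j)

theorem jHom_unip_h546 {w : InfinitePlace K} (hw : w.IsComplex) (x : ℂ) :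
    jHom_h546 hw (nC x) = T3.unip K (iotaHom_h546 hw x) := by
  apply g_ext_h546
  · intro w' i j
    rw [jHom_apply_h546]
    by_cases hne : w' = w
    · subst hne
      rw [jFun_entry_same_h546]
      have hu : ((T3.unip K (iotaHom_h546 hw x) : G K) : Matrix (Fin 2) (Fin 2) (Adl K))
          = !![1, iotaHom_h546 hw x; 0, 1] := rfl
      have hn : ((nC x : GL (Fin 2) ℂ) : Matrix (Fin 2) (Fin 2) ℂ) = !![1, x; 0, 1] := rfl
      rw [hu, hn]
      fin_cases i <;> fin_cases j
      · simp
        rfl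
      · simp
        exact (iota_same_h546 hw x).symm
      · simp
        rfl
      · simp
        rfl
    · rw [jFun_entry_ne_h546 hw _ hne]
      have hu : ((T3.unip K (iotaHom_h546 hw x) : G K) : Matrix (Fin 2) (Fin 2) (Adl K))
          = !![1, iotaHom_h546 hw x; 0, 1] := rfl
      rw [hu]
      fin_cases i <;> fin_cases j
      · simp
        rfl
      · simp
        exact (iota_ne_h546 hw x hne).symm
      · simp
        rfl
      · simp
        rfl
  · intro v i j
    rw [jHom_apply_h546, jFun_entry_fin_h546]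
    have hu : ((T3.unip K (iotaHom_h546 hw x) : G K) : Matrix (Fin 2) (Fin 2) (Adl K))
        = !![1, iotaHom_h546 hw x; 0, 1] := rfl
    rw [hu]
    fin_cases i <;> fin_cases j
    · simp
      rfl
    · simp
      rfl
    · simp
      rfl
    · simp
      rfl

theorem jHom_tor_h546 {w : InfinitePlace K} (hw : w.IsComplex) (y : (Adl K)ˣ)
    (hy : IsIdeleAtInf w y) (yc : ℂˣ)
    (hyc : (yc : ℂ) = InfinitePlace.Completion.extensionEmbedding w ((y : Adl K).1 w)) :
    tor y = jHom_h546 hw (tC yc) := by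
  have ht : ((tor y : G K) : Matrix (Fin 2) (Fin 2) (Adl K)) = !![(y : Adl K), 0; 0, 1] := rfl
  have hc : ((tC yc : GL (Fin 2) ℂ) : Matrix (Fin 2) (Fin 2) ℂ) = !![(yc : ℂ), 0; 0, 1] := rfl
  have hsymm : (InfinitePlace.Completion.ringEquivComplexOfIsComplex hw).symm (yc : ℂ)
      = (y : Adl K).1 w := by
    rw [hyc, ← InfinitePlace.Completion.ringEquivComplexOfIsComplex_apply hw,
      RingEquiv.symm_apply_apply]
  apply g_ext_h546
  · intro w' i j
    rw [jHom_apply_h546, ht]
    by_cases hne : w' = w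
    · subst hne
      rw [jFun_entry_same_h546, hc]
      fin_cases i <;> fin_cases j
      · simp
        exact hsymm.symm
      · simp
        rfl
      · simp
        rfl
      · simp
        rfl
    · rw [jFun_entry_ne_h546 hw _ hne]
      fin_cases i <;> fin_cases j
      · simp
        exact hy.1 w' hne
      · simp
        rfl
      · simp
        rfl
      · simp
        rfl
  · intro v i j
    rw [jHom_apply_h546, jFun_entry_fin_h546, ht]
    fin_cases i <;> fin_cases j
    · simp
      exact hy.2 v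
    · simp
      rfl
    · simp
      rfl
    · simp
      rfl

theorem glInf_eq_one_of_triv_h546 {w : InfinitePlace K} {g : G K} (hg : TrivAtInf w g) :
    glInf793 w g = 1 := by
  apply Units.ext
  exact Matrix.ext fun i j => hg i j

theorem jHom_comm_h546 {w : InfinitePlace K} (hw : w.IsComplex) (h : GL (Fin 2) ℂ) (g : G K)
    (hg : TrivAtInf w g) : jHom_h546 hw h * g = g * jHom_h546 hw h := by
  apply gl_ext793
  · intro w'
    rw [map_mul, map_mul, jHom_apply_h546, glInf_jFun_h546]
    by_cases hne : w' = w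
    · subst hne
      rw [glInf_eq_one_of_triv_h546 hg, mul_one, one_mul]
    · rw [kwFam_ne_h546 hw h hne, mul_one, one_mul]
  · intro v
    rw [map_mul, map_mul, jHom_apply_h546, glFin_jFun_h546, mul_one, one_mul]

/-- **T2.10.08.04 (A4) `LocEmbC`.** -/
theorem locEmbC_h546 (K : Type) [Field K] [NumberField K] : LocEmbC K := by
  intro w hw
  exact ⟨jHom_h546 hw, iotaHom_h546 hw,
    { cont := jHom_cont_h546 hw
      contAdd := continuous_iota_h546 hw
      loc := jHom_loc_h546 hw
      comp := jHom_comp_h546 hw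
      unip := jHom_unip_h546 hw
      tor := jHom_tor_h546 hw
      comm := jHom_comm_h546 hw }⟩

end Fermat.Agent.LT.T2.H973.H546

end
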